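import Mathlib
import Fermat.Prelude.Def_FreyPackage_EigenformResidualAttachment
import Fermat.Agent.S29.H33_Core
import Fermat.Agent.R.H91_Lucas
import Fermat.Agent.S13.Glue
import Fermat.Agent.S13.H63_CardOfTP
import Fermat.Agent.S13.H63_TPofPrePsi
import Fermat.Agent.S13.H46_TorsionPrePsi

/-!
# S42 from S29 (hence from S30): cluster R wiring, helper33

`result_of_S29 : Stmt_S29 → ∀ P M, 0 < M → P.EigenformResidualAttachmentAt M`.

`K = ℤ̄ ⧸ 𝔪`, `ψ` the quotient map, `ρ` the residual representation of S29 for `φ = ψ`; the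
number field `F` is the normal closure of the compositum of a finite level of `ρ` and the field
of the coordinates of the (finitely many, S13) `p`-torsion points of the Frey curve.
-/

set_option autoImplicit false

namespace Fermat.Agent.S42.H33

open WeierstrassCurve WeierstrassCurve.Affine WeierstrassCurve.Affine.Point Polynomial
open Fermat.Agent.S13

/-- A finite Galois extension of `ℚ` inside `Q̄` containing a given finite-dimensional
intermediate field and a given finite set. -/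
theorem exists_galois_field (L₁ : IntermediateField ℚ Qbar) (h₁ : FiniteDimensional ℚ L₁)
    (S : Finset Qbar) :
    ∃ F : IntermediateField ℚ Qbar, FiniteDimensional ℚ F ∧ Normal ℚ F ∧ L₁ ≤ F ∧
      ∀ x ∈ S, x ∈ F := by
  haveI := h₁
  haveI halg : Algebra.IsAlgebraic ℚ Qbar := AlgebraicClosure.isAlgebraic ℚ
  haveI hcl : IsAlgClosure ℚ Qbar := ⟨inferInstance, inferInstance⟩
  haveI hgal : IsGalois ℚ Qbar := inferInstance
  haveI hnorm : Normal ℚ Qbar := IsGalois.to_normal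
  let L₂ : IntermediateField ℚ Qbar := IntermediateField.adjoin ℚ (S : Set Qbar)
  haveI : FiniteDimensional ℚ L₂ := IntermediateField.finiteDimensional_adjoin
    (fun x _ => (Algebra.IsAlgebraic.isAlgebraic x).isIntegral)
  let L : IntermediateField ℚ Qbar := L₁ ⊔ L₂
  refine ⟨IntermediateField.normalClosure ℚ L Qbar, inferInstance,
    normalClosure.normal ℚ L Qbar, ?_, ?_⟩
  · exact le_trans le_sup_left (IntermediateField.le_normalClosure L)
  · intro x hx
    have h1 : x ∈ L₂ := IntermediateField.subset_adjoin ℚ _ hx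
    have h2 : L₂ ≤ L := le_sup_right
    exact IntermediateField.le_normalClosure L (h2 h1)

/-- Trace and determinant from the characteristic polynomial in rank 2. -/
theorem trace_det_of_charpoly {K V : Type*} [Field K] [AddCommGroup V] [Module K V]
    [Module.Free K V] [Module.Finite K V] (hV : Module.finrank K V = 2) (f : Module.End K V)
    {t d : K} (h : f.charpoly = X ^ 2 - C t * X + C d) :
    LinearMap.trace K V f = t ∧ LinearMap.det f = d := by
  rw [Fermat.Agent.R.H91.charpoly_eq_of_finrank_two hV f] at h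
  have h0 := congrArg (fun q : K[X] => q.coeff 0) h
  have h1 := congrArg (fun q : K[X] => q.coeff 1) h
  simp only [coeff_add, coeff_sub, coeff_X_pow, coeff_C_mul, coeff_X_zero, coeff_X_one,
    coeff_C_zero, coeff_C_succ, mul_zero, mul_one, sub_zero, add_zero] at h0 h1
  norm_num at h0 h1
  exact ⟨h1, h0⟩

/-- **S42 from S29.** -/
theorem result_of_S29 (hS29 : Fermat.Agent.S29.H33.Stmt_S29) (P : FreyPackage) :
    ∀ M : ℕ, 0 < M → P.EigenformResidualAttachmentAt M := by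
  intro M _hM g hg 𝔪 h𝔪 hp𝔪
  classical
  haveI := h𝔪
  haveI : Fact P.p.Prime := ⟨P.pp⟩
  letI iK : Field (integralClosure ℤ ℂ ⧸ 𝔪) := Ideal.Quotient.field 𝔪
  let ψ : integralClosure ℤ ℂ →+* (integralClosure ℤ ℂ ⧸ 𝔪) := Ideal.Quotient.mk 𝔪
  haveI iChar : CharP (integralClosure ℤ ℂ ⧸ 𝔪) P.p := by
    refine (CharP.charP_iff_prime_eq_zero P.pp).mpr ?_
    have : ψ (P.p : integralClosure ℤ ℂ) = 0 := Ideal.Quotient.eq_zero_iff_mem.mpr hp𝔪
    rwa [map_natCast] at this
  obtain ⟨ρ₀, hatt, -⟩ := hS29 hg P.pp ψ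
  -- the field `F`
  obtain ⟨L₁, hL₁, hρ₀⟩ := ρ₀.factorsThroughFiniteLevel
  haveI hfin : Finite (Vp P) :=
    (H63.card_of_torsion_poly (H63.torsion_poly_of_preΨ stmt_torsion_preΨ) P).1
  letI : Fintype (Vp P) := Fintype.ofFinite _
  let S : Finset Qbar := Finset.univ.biUnion fun v : Vp P =>
    coordSet (v : (P.freyCurve⁄Qbar).Point)
  obtain ⟨F, hFfin, hFnorm, hL₁F, hSF⟩ := exists_galois_field L₁ hL₁ S
  haveI := hFfin
  haveI := hFnorm
  have hℓK : ∀ ℓ : ℕ, ℓ.Prime → ℓ ≠ P.p → ((ℓ : ℕ) : integralClosure ℤ ℂ ⧸ 𝔪) ≠ 0 := by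
    intro ℓ hℓ hℓp h0
    have hdvd : P.p ∣ ℓ := (CharP.cast_eq_zero_iff (integralClosure ℤ ℂ ⧸ 𝔪) P.p ℓ).mp h0
    exact hℓp ((Nat.prime_dvd_prime_iff_eq P.pp hℓ).mp hdvd).symm
  refine ⟨integralClosure ℤ ℂ ⧸ 𝔪, iK, ZMod.algebra _ P.p, ρ₀.V, inferInstance, inferInstance,
    ρ₀.ρ, ψ, F, inferInstance, ⟨⟩, ⟨⟩, inferInstance, inferInstance, ?_, ρ₀.finrank_eq,
    ?_, ?_, ?_⟩
  · rw [Ideal.mk_ker]
  · intro σ hσ
    rw [MonoidHom.mem_ker] at hσ
    have hfix : ∀ x ∈ F, σ x = x := by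
      intro x hx
      have h := AlgEquiv.restrictNormal_commutes σ F ⟨x, hx⟩
      have h1 : σ.restrictNormal F = 1 := hσ
      rw [h1] at h
      exact h.symm
    refine ⟨?_, ?_⟩
    · show σ ∈ MonoidHom.ker _
      rw [MonoidHom.mem_ker]
      refine LinearMap.ext fun v => ?_
      rw [galoisRepModuleEnd_apply, Module.End.one_apply]
      refine smul_eq_of_fix_coords P σ v fun x hx => hfix x (hSF x ?_)
      exact Finset.mem_biUnion.mpr ⟨v, Finset.mem_univ _, hx⟩
    · show σ ∈ MonoidHom.ker _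
      rw [MonoidHom.mem_ker]
      exact hρ₀ σ fun x hx => hfix x (hL₁F hx)
  · intro ℓ hℓ hℓM hℓp A hA τ hτ
    obtain ⟨a, ha, hcp⟩ := hatt ℓ hℓ hℓM (hℓK ℓ hℓ hℓp) A hA τ hτ
    exact ⟨a, ha, (trace_det_of_charpoly ρ₀.finrank_eq _ hcp).1⟩
  · intro ℓ hℓ hℓM hℓp A hA τ hτ
    obtain ⟨a, _, hcp⟩ := hatt ℓ hℓ hℓM (hℓK ℓ hℓ hℓp) A hA τ hτ
    exact (trace_det_of_charpoly ρ₀.finrank_eq _ hcp).2

/-- **S42 from S30.** -/
theorem result_of_S30 (hS30 : Fermat.Agent.R.Stmt_S30) (P : FreyPackage) :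
    ∀ M : ℕ, 0 < M → P.EigenformResidualAttachmentAt M :=
  result_of_S29 (Fermat.Agent.S29.H33.stmt_S29_of_S30 hS30) P

end Fermat.Agent.S42.H33
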